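import Fermat.Agent.S19.Defs

/-!
# S17 (DIV), step (D4): exchange

* `isTranscendenceBasis_of_isAlgebraic_adjoin` : a family with at most `g` members over which `Ω` is
  algebraic is a transcendence basis as soon as `Ω` contains `g` algebraically independent elements.
* `eval₂_eq_zero_of_indep` : the values of a non-constant function at independent generic points are
  algebraically independent.
* `exchange_kit` : (D4).
-/

set_option autoImplicit false

namespace S17Lib

open Fermat.Agent.S19Lib IntermediateField

section Exchange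

variable {K Ω : Type*} [Field K] [Field Ω] [Algebra K Ω]

/-- exchange -/
theorem isTranscendenceBasis_of_isAlgebraic_adjoin {g g' : ℕ} (x : Fin g → Ω)
    (hx : AlgebraicIndependent K x) (z : Fin g' → Ω) (hg : g' ≤ g)
    (hz : Algebra.IsAlgebraic (Algebra.adjoin K (Set.range z)) Ω) :
    g' = g ∧ IsTranscendenceBasis K z := by
  classical
  obtain ⟨t, htz, ht⟩ := exists_isTranscendenceBasis_subset (R := K) (Set.range z)
  have hfin : (Set.range z).Finite := Set.finite_range z
  have htfin : t.Finite := hfin.subset htz
  have hcard' : g ≤ t.ncard := by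
    have h0 := hx.lift_cardinalMk_le_trdeg
    rw [← ht.cardinalMk_eq_trdeg] at h0
    have h1 : (g : Cardinal) ≤ Cardinal.mk t := by
      simpa using h0
    have : Finite t := htfin
    rw [← Nat.card_coe_set_eq]
    have h2 : Cardinal.mk t = (Nat.card t : Cardinal) := (Nat.cast_card).symm
    rw [h2] at h1
    exact_mod_cast h1
  have hle : (Set.range z).ncard ≤ g' := by
    have := Set.ncard_image_le (f := z) (s := Set.univ) Set.finite_univ
    simpa [Set.image_univ, Set.ncard_univ] using this
  have hle2 : t.ncard ≤ (Set.range z).ncard := Set.ncard_le_ncard htz hfin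
  have hgg : g' = g := by omega
  have heq : t = Set.range z := Set.eq_of_subset_of_ncard_le htz (by omega) hfin
  have hinj : Function.Injective z := by
    have h1 : (Set.range z).ncard = g' := by omega
    have h2 : (Finset.univ.image z).card = (Finset.univ : Finset (Fin g')).card := by
      have h3 : ((Finset.univ.image z : Finset Ω) : Set Ω) = Set.range z := by
        ext a
        simp
      rw [Finset.card_univ, Fintype.card_fin, ← Set.ncard_coe_finset, h3, h1]
    have := Finset.card_image_iff.mp h2
    intro a b hab
    exact this (Finset.mem_coe.mpr (Finset.mem_univ a)) (Finset.mem_coe.mpr (Finset.mem_univ b)) hab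
  refine ⟨hgg, ?_⟩
  subst heq
  exact (isTranscendenceBasis_subtype_range hinj).mp ht

open scoped IntermediateField.algebraAdjoinAdjoin in
/-- the same with the intermediate field generated by `z` -/
theorem isTranscendenceBasis_of_isAlgebraic_adjoin' {g g' : ℕ} (x : Fin g → Ω)
    (hx : AlgebraicIndependent K x) (z : Fin g' → Ω) (hg : g' ≤ g)
    (hz : Algebra.IsAlgebraic (IntermediateField.adjoin K (Set.range z)) Ω) :
    g' = g ∧ IsTranscendenceBasis K z :=
  isTranscendenceBasis_of_isAlgebraic_adjoin x hx z hg
    ((IsFractionRing.comap_isAlgebraic_iff (A := Algebra.adjoin K (Set.range z))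
      (K := IntermediateField.adjoin K (Set.range z)) (C := Ω)).mpr hz)

end Exchange

section Kit

variable {K F Ω : Type*} [Field K] [Field F] [Algebra K F] [Field Ω]

theorem linearIndependent_pow_of_transcendental {x : F} (hx : Transcendental K x) (m : ℕ) :
    LinearIndependent K (fun k : Fin m => x ^ (k : ℕ)) := by
  have h1 : LinearIndependent K (fun k : ℕ => (Polynomial.X : Polynomial K) ^ k) := by
    have := (Polynomial.basisMonomials K).linearIndependent
    have h2 : (fun k : ℕ => (Polynomial.X : Polynomial K) ^ k) = Polynomial.basisMonomials K := by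
      funext k
      simp [Polynomial.X_pow_eq_monomial]
    rw [h2]
    exact this
  have h3 : LinearIndependent K (fun k : ℕ => x ^ k) := by
    have := h1.map' (Polynomial.aeval x).toLinearMap
      (LinearMap.ker_eq_bot.mpr (transcendental_iff_injective.mp hx))
    simpa [Function.comp_def] using this
  exact h3.comp _ Fin.val_injective

/-- (D4a) the values of a non-constant function at independent generic points are algebraically
independent -/
theorem eval₂_eq_zero_of_indep (j : K →+* Ω) {g : ℕ} (e : Fin g → F →+* Ω) (hind : Indep j e)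
    (x : F) (hx : Transcendental K x) (p : MvPolynomial (Fin g) K)
    (hp : MvPolynomial.eval₂ j (fun i => e i x) p = 0) : p = 0 := by
  classical
  set m : ℕ := p.totalDegree + 1 with hm
  have : NeZero m := ⟨by omega⟩
  let toS : (Fin g → Fin m) → (Fin g →₀ ℕ) := fun ν => Finsupp.equivFunOnFinite.symm fun i => (ν i : ℕ)
  let ofS : (Fin g →₀ ℕ) → (Fin g → Fin m) := fun d i => Fin.ofNat m (d i)
  have hbd : ∀ d ∈ p.support, ∀ i, d i < m := by
    intro d hd i
    have h1 : d i ≤ d.sum fun _ k => k := by
      rw [Finsupp.sum_fintype _ _ (fun _ => rfl)]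
      exact Finset.single_le_sum (f := fun i => d i) (fun _ _ => Nat.zero_le _) (Finset.mem_univ i)
    have h2 := MvPolynomial.le_totalDegree hd
    omega
  have hto : ∀ d ∈ p.support, toS (ofS d) = d := by
    intro d hd
    ext i
    simp only [toS, ofS, Finsupp.equivFunOnFinite_symm_apply_apply, Fin.val_ofNat]
    exact Nat.mod_eq_of_lt (hbd d hd i)
  have key : MvPolynomial.eval₂ j (fun i => e i x) p =
      ∑ ν : Fin g → Fin m, j (p.coeff (toS ν)) * ∏ i, e i ((fun k : Fin m => x ^ (k : ℕ)) (ν i)) := by
    rw [MvPolynomial.eval₂_eq']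
    refine Finset.sum_of_injOn ofS ?_ (fun _ _ => Finset.mem_coe.mpr (Finset.mem_univ _)) ?_ ?_
    · intro d hd d' hd' h
      rw [← hto d hd, ← hto d' hd']
      exact congrArg toS h
    · intro ν _ hν
      have : toS ν ∉ p.support := by
        intro h
        apply hν
        refine ⟨toS ν, h, ?_⟩
        funext i
        apply Fin.ext
        simp only [toS, ofS, Finsupp.equivFunOnFinite_symm_apply_apply, Fin.val_ofNat]
        exact Nat.mod_eq_of_lt (ν i).2
      rw [MvPolynomial.notMem_support_iff.mp this, map_zero, zero_mul]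
    · intro d hd
      rw [hto d hd]
      congr 1
      refine Finset.prod_congr rfl fun i _ => ?_
      simp only [ofS, Fin.val_ofNat, map_pow]
      rw [Nat.mod_eq_of_lt (hbd d hd i)]
  rw [key] at hp
  have hl := hind m _ (linearIndependent_pow_of_transcendental hx m)
    (fun ν => p.coeff (toS ν)) hp
  by_contra hne
  obtain ⟨d, hd⟩ := (MvPolynomial.support_nonempty.mpr hne)
  have := congrFun hl (ofS d)
  simp only [hto d hd, Pi.zero_apply] at this
  exact (MvPolynomial.mem_support_iff.mp hd) this

/-- (D4) exchange for generic points: if `Ω` contains `g` independent generic points and is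
algebraic over the field generated by `g' ≤ g` points `e'`, then `g' = g` and the values of
non-constant functions `z i` at the `e' i` are algebraically independent over `K`. -/
theorem exchange_kit (j : K →+* Ω)
    (hFalg : ∀ z : F, Transcendental K z → Algebra.IsAlgebraic K⟮z⟯ F) {g g' : ℕ}
    (e : Fin g → F →+* Ω) (hind : Indep j e) (x : F) (hx : Transcendental K x)
    (e' : Fin g' → F →+* Ω) (he' : ∀ i a, e' i (algebraMap K F a) = j a) (hg : g' ≤ g)
    (halg' : ∀ w : Ω, IsAlgebraic (Subfield.closure (Set.range j ∪ ⋃ i, Set.range (e' i))) w)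
    (z : Fin g' → F) (hz : ∀ i, Transcendental K (z i)) :
    g' = g ∧ ∀ p : MvPolynomial (Fin g') K,
      MvPolynomial.eval₂ j (fun i => e' i (z i)) p = 0 → p = 0 := by
  classical
  let _ : Algebra K Ω := j.toAlgebra
  have hxI : AlgebraicIndependent K (fun i => e i x) := by
    rw [algebraicIndependent_iff]
    intro p hp
    exact eval₂_eq_zero_of_indep j e hind x hx p hp
  let M : IntermediateField K Ω := adjoin K (Set.range fun i => e' i (z i))
  have h1 : ∀ i f, IsAlgebraic M (e' i f) := by
    intro i f
    let E : F →ₐ[K] Ω := { (e' i) with commutes' := he' i }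
    have hmem : ∀ a : K⟮z i⟯, ((e' i).comp (algebraMap K⟮z i⟯ F)) a ∈ M := by
      intro a
      have h2 : E (a : F) ∈ (K⟮z i⟯).map E := ⟨a, a.2, rfl⟩
      rw [IntermediateField.adjoin_map] at h2
      refine IntermediateField.adjoin.mono K _ _ ?_ h2
      rintro _ ⟨_, rfl, rfl⟩
      exact ⟨i, rfl⟩
    let φ : K⟮z i⟯ →+* M := RingHom.codRestrict ((e' i).comp (algebraMap K⟮z i⟯ F)) M hmem
    have := (hFalg (z i) (hz i)).isAlgebraic f
    exact this.ringHom_of_comp_eq φ (e' i) φ.injective (by ext a; rfl)
  have h2 : Subfield.closure (Set.range j ∪ ⋃ i, Set.range (e' i)) ≤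
      (algebraicClosure M Ω).toSubfield := by
    rw [Subfield.closure_le]
    rintro w (⟨a, rfl⟩ | hw)
    · exact (algebraicClosure M Ω).algebraMap_mem (algebraMap K M a)
    · obtain ⟨_, ⟨i, rfl⟩, f, rfl⟩ := hw
      exact mem_algebraicClosure_iff.mpr (h1 i f)
  have h3 : ∀ w : Ω, w ∈ algebraicClosure M Ω := by
    intro w
    have h4 : IsAlgebraic (algebraicClosure M Ω) w :=
      (halg' w).ringHom_of_comp_eq (Subfield.inclusion h2) (RingHom.id Ω)
        (Subfield.inclusion h2).injective (by ext a; rfl)
    have h5 : IsAlgebraic M w := h4.restrictScalars M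
    exact mem_algebraicClosure_iff.mpr h5
  have h4 : Algebra.IsAlgebraic M Ω := ⟨fun w => mem_algebraicClosure_iff.mp (h3 w)⟩
  obtain ⟨hgg, hb⟩ := isTranscendenceBasis_of_isAlgebraic_adjoin' _ hxI
    (fun i => e' i (z i)) hg h4
  refine ⟨hgg, fun p hp => ?_⟩
  exact (algebraicIndependent_iff.mp hb.1) p hp

end Kit

end S17Lib
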