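import Fermat.Agent.S17.Div.Exchange
import Fermat.Agent.S19.CEBasic

/-!
# S17 (DIV), step (D4), curve side: `exchange`
-/

set_option autoImplicit false

open AlgebraicCurve

namespace S17Lib

open Fermat.Agent.S19Lib Fermat.Agent.S24Lib IntermediateField

section Field

variable {Om : Type*} [Field Om]

theorem isAlgebraic_closure_trans (S T : Set Om)
    (hS : ∀ s ∈ S, IsAlgebraic (Subfield.closure T) s) (w : Om)
    (hw : IsAlgebraic (Subfield.closure S) w) : IsAlgebraic (Subfield.closure T) w := by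
  have h2 : Subfield.closure S ≤ (algebraicClosure (Subfield.closure T) Om).toSubfield := by
    rw [Subfield.closure_le]
    intro s hs
    exact mem_algebraicClosure_iff.mpr (hS s hs)
  have h4 : IsAlgebraic (algebraicClosure (Subfield.closure T) Om) w :=
    hw.ringHom_of_comp_eq (Subfield.inclusion h2) (RingHom.id Om)
      (Subfield.inclusion h2).injective (by ext a; rfl)
  exact h4.restrictScalars (Subfield.closure T)

theorem isAlgebraic_of_mem_closure (T : Set Om) {s : Om} (hs : s ∈ T) :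
    IsAlgebraic (Subfield.closure T) s :=
  isAlgebraic_algebraMap (⟨s, Subfield.subset_closure hs⟩ : Subfield.closure T)

end Field

theorem transcendental_of_notMem_range {K F : Type*} [Field K] [Field F] [Algebra K F]
    [IsAlgClosed K] {z : F} (hz : z ∉ Set.range (algebraMap K F)) : Transcendental K z := by
  intro halg
  apply hz
  have : Algebra.IsAlgebraic K K⟮z⟯ := IntermediateField.isAlgebraic_adjoin_simple halg.isIntegral
  have h1 : K⟮z⟯ = ⊥ := IntermediateField.eq_bot_of_isAlgClosed_of_isAlgebraic _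
  have h2 : z ∈ K⟮z⟯ := IntermediateField.mem_adjoin_simple_self K z
  rw [h1] at h2
  exact IntermediateField.mem_bot.mp h2

variable {K F Om FOm : Type*} [Field K] [Field F] [Algebra K F] [Field Om] [Field FOm]
  [Algebra Om FOm]

/-- (D4), curve side (helper8's `exchange`; the subfield is `fieldL C v'` unfolded) -/
theorem exchange [CharZero K] [IsAlgClosed K] [IsAlgClosed Om] (hF : IsFF K F)
    (hFOm : IsFF Om FOm) (C : CE K F Om FOm) {g : ℕ} (e : Fin g → F →+* Om)
    (he : ∀ i a, e i (algebraMap K F a) = C.i a) (hind : Indep C.i e)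
    (halg : ∀ z : Om, IsAlgebraic (Subfield.closure (Set.range C.i ∪ ⋃ i, Set.range (e i))) z)
    (v' : Fin g → Place Om FOm)
    (hL : ∀ i f, IsAlgebraic (Subfield.closure (Set.range C.i ∪
      {z | ∃ (i : Fin g) (e' : F →+* Om) (f : F), IsPt C e' (v' i) ∧ z = e' f})) (e i f)) :
    ∃ e' : Fin g → F →+* Om, (∀ i, IsPt C (e' i) (v' i)) ∧
      ∀ z : Fin g → F, (∀ i, z i ∉ Set.range (algebraMap K F)) →
        ∀ p : MvPolynomial (Fin g) K, p.eval₂ C.i (fun i => e' i (z i)) = 0 → p = 0 := by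
  classical
  obtain ⟨x, hx, -⟩ := id hF
  have hFalg : ∀ z : F, Transcendental K z → Algebra.IsAlgebraic K⟮z⟯ F := fun z hz => by
    have := IsFF.finiteDimensional hF hz
    exact Algebra.IsAlgebraic.of_finite _ _
  have hA : ∀ {g' : ℕ} (e'' : Fin g' → F →+* Om),
      (∀ (i : Fin g) (e' : F →+* Om), IsPt C e' (v' i) → ∃ k, e'' k = e') →
      ∀ w : Om, IsAlgebraic (Subfield.closure (Set.range C.i ∪ ⋃ k, Set.range (e'' k))) w := by
    intro g' e'' h w
    refine isAlgebraic_closure_trans _ _ ?_ w (halg w)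
    rintro s (⟨a, rfl⟩ | hs)
    · exact isAlgebraic_of_mem_closure _ (Or.inl ⟨a, rfl⟩)
    · obtain ⟨_, ⟨i, rfl⟩, f, rfl⟩ := hs
      refine isAlgebraic_closure_trans _ _ ?_ _ (hL i f)
      rintro s (⟨a, rfl⟩ | ⟨i', e', f', hpt, rfl⟩)
      · exact isAlgebraic_of_mem_closure _ (Or.inl ⟨a, rfl⟩)
      · obtain ⟨k, rfl⟩ := h i' e' hpt
        exact isAlgebraic_of_mem_closure _ (Or.inr (Set.mem_iUnion.2 ⟨k, f', rfl⟩))
  let S : Finset (Fin g) := Finset.univ.filter (fun i => ∃ e', IsPt C e' (v' i))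
  have hs : ∀ k : Fin S.card, ∃ e', IsPt C e' (v' (S.orderEmbOfFin rfl k)) := fun k =>
    (Finset.mem_filter.mp (S.orderEmbOfFin_mem rfl k)).2
  choose e'' he'' using hs
  have hg : S.card ≤ g := by simpa using S.card_le_univ
  have h1 := exchange_kit C.i hFalg e hind x hx e'' (fun k a => (he'' k).comm a) hg
    (hA e'' (by
      intro i e' hpt
      have hi : i ∈ (S : Set (Fin g)) := Finset.mem_coe.mpr
        (Finset.mem_filter.mpr ⟨Finset.mem_univ _, e', hpt⟩)
      rw [← S.range_orderEmbOfFin rfl] at hi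
      obtain ⟨k, rfl⟩ := hi
      exact ⟨k, IsPt.eq_of (he'' k) hpt⟩)) (fun _ => x) (fun _ => hx)
  have hSuniv : S = Finset.univ := Finset.eq_univ_of_card _ (by rw [Fintype.card_fin]; exact h1.1)
  have hall : ∀ i, ∃ e', IsPt C e' (v' i) := fun i =>
    (Finset.mem_filter.mp (hSuniv ▸ Finset.mem_univ i : i ∈ S)).2
  choose e' he' using hall
  refine ⟨e', he', fun z hz p hp => ?_⟩
  exact (exchange_kit C.i hFalg e hind x hx e' (fun i a => (he' i).comm a) le_rfl
    (hA e' (fun i e1 h => ⟨i, IsPt.eq_of (he' i) h⟩)) z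
    (fun i => transcendental_of_notMem_range (hz i))).2 p hp

end S17Lib
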