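import Mathlib

/-!
# Orbits of transcendental elements under `Aut(Ω/L)`

`Ω` algebraically closed, `L` a field of characteristic zero with `Algebra L Ω`.
If `y : Ω` is transcendental over `L`, then for every `c : L` there is an `L`-automorphism of `Ω`
sending `y` to `y + c`; hence the orbit of `y` is infinite.  Consequently, if all orbits are
finite then `Ω` is algebraic over `L`.
-/

set_option autoImplicit false

namespace S17Lib

open MvPolynomial

section shift

variable {L : Type*} [CommRing L] {ι : Type*} [DecidableEq ι]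

/-- The `L`-algebra endomorphism `X i₀ ↦ X i₀ + c`, other variables fixed. -/
noncomputable def shiftHom (i₀ : ι) (c : L) : MvPolynomial ι L →ₐ[L] MvPolynomial ι L :=
  aeval (fun i => if i = i₀ then X i + C c else X i)

theorem shiftHom_X (i₀ : ι) (c : L) (i : ι) :
    shiftHom i₀ c (X i) = if i = i₀ then X i + C c else X i := by
  simp [shiftHom]

theorem shiftHom_comp (i₀ : ι) (c d : L) (h : c + d = 0) :
    (shiftHom i₀ c).comp (shiftHom i₀ d) = AlgHom.id L _ := by
  apply MvPolynomial.algHom_ext
  intro i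
  simp only [AlgHom.comp_apply, shiftHom_X, AlgHom.id_apply]
  by_cases hi : i = i₀
  · simp only [hi, if_true, map_add, shiftHom_X, algHom_C]
    rw [add_assoc, ← algebraMap_eq, ← map_add, h, map_zero, add_zero]
  · simp only [hi, if_false, shiftHom_X]

/-- The shift as an algebra automorphism. -/
noncomputable def shiftEquiv (i₀ : ι) (c : L) : MvPolynomial ι L ≃ₐ[L] MvPolynomial ι L :=
  AlgEquiv.ofAlgHom (shiftHom i₀ c) (shiftHom i₀ (-c))
    (shiftHom_comp i₀ c (-c) (by ring)) (shiftHom_comp i₀ (-c) c (by ring))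

theorem shiftEquiv_X_self (i₀ : ι) (c : L) : shiftEquiv i₀ c (X i₀) = X i₀ + C c := by
  simp [shiftEquiv, shiftHom_X]

end shift

variable {L Ω : Type*} [Field L] [Field Ω] [Algebra L Ω] [IsAlgClosed Ω]

/-- A transcendental element can be translated by any constant by an automorphism. -/
theorem exists_algEquiv_add_of_transcendental (y : Ω) (hy : Transcendental L y) (c : L) :
    ∃ s : Ω ≃ₐ[L] Ω, s y = y + algebraMap L Ω c := by
  classical
  have hind : AlgebraicIndepOn L id ({y} : Set Ω) := by
    have := (algebraicIndependent_singleton_iff (R := L) (ι := ({y} : Set Ω))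
      (x := fun i => id (i : Ω)) ⟨y, rfl⟩).2 hy
    exact this
  obtain ⟨t, hyt, ht⟩ := exists_isTranscendenceBasis_superset hind
  have hyt' : y ∈ t := hyt rfl
  letI := IsAlgClosed.isAlgClosure_of_transcendence_basis _ ht
  let A := Algebra.adjoin L (Set.range ((↑) : t → Ω))
  let e : A ≃ₐ[L] A :=
    (ht.1.aevalEquiv.symm.trans (shiftEquiv (⟨y, hyt'⟩ : t) c)).trans ht.1.aevalEquiv
  let σ : Ω ≃+* Ω := IsAlgClosure.equivOfEquiv Ω Ω e.toRingEquiv
  have hσ : ∀ a : A, σ (algebraMap A Ω a) = algebraMap A Ω (e a) := fun a =>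
    IsAlgClosure.equivOfEquiv_algebraMap Ω Ω e.toRingEquiv a
  refine ⟨AlgEquiv.ofRingEquiv (f := σ) ?_, ?_⟩
  · intro r
    have h1 : algebraMap L Ω r = algebraMap A Ω (algebraMap L A r) := rfl
    rw [h1, hσ, e.commutes]
  · show σ y = _
    have h1 : y = algebraMap A Ω (ht.1.aevalEquiv (X (⟨y, hyt'⟩ : t))) := by
      rw [ht.1.algebraMap_aevalEquiv, aeval_X]
    conv_lhs => rw [h1]
    rw [hσ]
    show algebraMap A Ω (ht.1.aevalEquiv (shiftEquiv (⟨y, hyt'⟩ : t) c
      (ht.1.aevalEquiv.symm (ht.1.aevalEquiv (X (⟨y, hyt'⟩ : t)))))) = _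
    rw [AlgEquiv.symm_apply_apply, shiftEquiv_X_self, ht.1.algebraMap_aevalEquiv]
    simp

/-- The orbit of a transcendental element under `Aut(Ω/L)` is infinite (characteristic zero). -/
theorem infinite_orbit_of_transcendental [CharZero L] (y : Ω) (hy : Transcendental L y) :
    (Set.range (fun s : Ω ≃ₐ[L] Ω => s y)).Infinite := by
  have hinj : Function.Injective (fun n : ℕ => y + algebraMap L Ω (n : L)) := by
    intro a b hab
    have h1 : algebraMap L Ω (a : L) = algebraMap L Ω (b : L) := add_left_cancel hab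
    exact_mod_cast (algebraMap L Ω).injective h1
  refine (Set.infinite_range_of_injective hinj).mono ?_
  rintro _ ⟨n, rfl⟩
  obtain ⟨s, hs⟩ := exists_algEquiv_add_of_transcendental y hy (n : L)
  exact ⟨s, hs⟩

/-- An element with finite orbit under `Aut(Ω/L)` is algebraic over `L`. -/
theorem isAlgebraic_of_finite_orbit [CharZero L] (y : Ω)
    (hy : (Set.range (fun s : Ω ≃ₐ[L] Ω => s y)).Finite) : IsAlgebraic L y := by
  by_contra h
  exact infinite_orbit_of_transcendental y h hy

/-- If all orbits are finite then `Ω` is algebraic over `L`. -/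
theorem isAlgebraic_of_forall_finite_orbit [CharZero L]
    (h : ∀ y : Ω, (Set.range (fun s : Ω ≃ₐ[L] Ω => s y)).Finite) : Algebra.IsAlgebraic L Ω :=
  ⟨fun y => isAlgebraic_of_finite_orbit y (h y)⟩

/-- Generators version: if `Ω` is algebraic over `L(S)` and each element of `S` has finite orbit,
then `Ω` is algebraic over `L`. -/
theorem isAlgebraic_of_finite_orbit_of_adjoin [CharZero L] (S : Set Ω)
    (hS : ∀ y ∈ S, (Set.range (fun s : Ω ≃ₐ[L] Ω => s y)).Finite)
    (halg : Algebra.IsAlgebraic (IntermediateField.adjoin L S) Ω) : Algebra.IsAlgebraic L Ω := by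
  haveI : Algebra.IsAlgebraic L (IntermediateField.adjoin L S) :=
    IntermediateField.isAlgebraic_adjoin (fun y hy => (isAlgebraic_of_finite_orbit y (hS y hy)).isIntegral)
  exact Algebra.IsAlgebraic.trans L (IntermediateField.adjoin L S) Ω

end S17Lib
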