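import Fermat.Agent.S19.Kit

/-!
# S17 (DIV, D5): specialisation kit for a tuple of points with algebraically independent values

Same conclusion as `S19Lib.exists_spec_kit`, but instead of `Indep C.i e` we only assume that the
values `e i (z i)` are algebraically independent over `K`, where `z i ≠ 0` vanishes at most at
`Q i` (i.e. `1 / z i` has its only pole at `Q i`).
-/

set_option autoImplicit false

open AlgebraicCurve

namespace S17Lib

open Fermat.Agent.S18Lib Fermat.Agent.S24Lib Fermat.Agent.FFLib Fermat.Agent.S34Lib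
  Fermat.Agent.S19Lib

variable {K F K' F' : Type*} [Field K] [Field F] [Algebra K F] [Field K'] [Field F']
  [Algebra K' F'] [IsAlgClosed K] [IsAlgClosed K']

omit [IsAlgClosed K'] in
/-- a valuation ring of `K'` with residue field `K`, sending algebraically independent
elements `y i` to `0` -/
theorem exists_spec_zero (j : K →+* K') {g : ℕ} (y : Fin g → K')
    (hind : ∀ p : MvPolynomial (Fin g) K, MvPolynomial.eval₂ j y p = 0 → p = 0) :
    ∃ (B : ValuationSubring K') (r : B →+* K), (∀ a, ∃ h : j a ∈ B, r ⟨j a, h⟩ = a) ∧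
      ∀ i : Fin g, ∃ h : y i ∈ B, r ⟨y i, h⟩ = 0 := by
  classical
  let ψ : MvPolynomial (Fin g) K →+* K' := MvPolynomial.eval₂Hom j y
  have hψ : Function.Injective ψ := by
    rw [injective_iff_map_eq_zero]
    intro p hp
    exact hind p hp
  let E : MvPolynomial (Fin g) K ≃+* ψ.range := RingEquiv.ofBijective ψ.rangeRestrict
    ⟨fun a b hab => hψ (congrArg Subtype.val hab), ψ.rangeRestrict_surjective⟩
  let φ : ψ.range →+* K :=
    (MvPolynomial.eval₂Hom (RingHom.id K) (fun _ : Fin g => (0 : K))).comp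
      (E.symm : ψ.range →+* MvPolynomial (Fin g) K)
  have hφ : ∀ (p : MvPolynomial (Fin g) K) (h : ψ p ∈ ψ.range),
      φ ⟨ψ p, h⟩ = MvPolynomial.eval₂Hom (RingHom.id K) (fun _ : Fin g => (0 : K)) p := by
    intro p h
    have : (⟨ψ p, h⟩ : ψ.range) = E p := rfl
    show MvPolynomial.eval₂Hom (RingHom.id K) (fun _ : Fin g => (0 : K)) (E.symm ⟨ψ p, h⟩) = _
    rw [this, RingEquiv.symm_apply_apply]
  obtain ⟨B, r, hSB, hr⟩ := exists_valuationSubring_extending ψ.range φ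
  refine ⟨B, r, fun a => ?_, fun i => ?_⟩
  · have h1 : ψ (MvPolynomial.C a) = j a := by simp [ψ]
    have h : j a ∈ ψ.range := ⟨_, h1⟩
    refine ⟨hSB h, ?_⟩
    rw [hr ⟨j a, h⟩]
    have h2 := hφ (MvPolynomial.C a) ⟨_, rfl⟩
    simp only [h1] at h2
    rw [h2]
    simp
  · have h1 : ψ (MvPolynomial.X i) = y i := by simp [ψ]
    have h : y i ∈ ψ.range := ⟨_, h1⟩
    refine ⟨hSB h, ?_⟩
    rw [hr ⟨y i, h⟩]
    have h2 := hφ (MvPolynomial.X i) ⟨_, rfl⟩
    simp only [h1] at h2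
    rw [h2]
    simp

/-- (D5) the specialisation kit for a tuple of points `e i` such that the `e i (z i)` are
algebraically independent, `z i ≠ 0` having no zero outside `Q i`. -/
theorem exists_spec_kit2 (hF : IsFF K F) (hF' : IsFF K' F') (C : CE K F K' F') {g : ℕ}
    (e : Fin g → F →+* K') (Q : Fin g → Place K F) (z : Fin g → F) (hz0 : ∀ i, z i ≠ 0)
    (hz : ∀ i (P : Place K F), P ≠ Q i → P.ord (z i) ≤ 0)
    (hind : ∀ p : MvPolynomial (Fin g) K,
      MvPolynomial.eval₂ C.i (fun i => e i (z i)) p = 0 → p = 0) :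
    ∃ (B : ValuationSubring K') (r : B →+* K) (rho : Place K' F' → Place K F),
      (∀ a, ∃ h : C.i a ∈ B, r ⟨C.i a, h⟩ = a) ∧
      (∀ D' : Divisor K' F', Divisor.IsPrincipal D' →
        Divisor.IsPrincipal (Finsupp.mapDomain rho D')) ∧
      (∀ D' : Divisor K' F', Fermat.Agent.FFLib.ell D' ≤ Fermat.Agent.FFLib.ell (Finsupp.mapDomain rho D')) ∧
      (∀ P, rho (C.extP hF hF' P) = P) ∧
      (∀ i v, IsPt C (e i) v → rho v = Q i) ∧
      (∀ (e' : F →+* K') (v : Place K' F'), IsPt C e' v → ∀ f : F, 0 ≤ (rho v).ord f →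
        ∃ h : e' f ∈ B, r ⟨e' f, h⟩ = evP (rho v) f) := by
  classical
  obtain ⟨B, r, hr1, hr2⟩ := exists_spec_zero C.i (fun i => e i (z i)) hind
  obtain ⟨R', hR'⟩ := exists_specRed C B r hr1
  have hsurj : Function.Surjective r := fun a => ⟨_, (hr1 a).2⟩
  obtain ⟨rho, hrho⟩ := exists_isRho hF' hF hsurj R' (genusR_ce_le hF hF' C)
  have h4 : ∀ P, rho (C.extP hF hF' P) = P := by
    intro P
    obtain ⟨x, hx1, hx2⟩ := ce3_exists_only_pole hF P
    obtain ⟨Q1, hQ1⟩ := ce3_exists_pole hF hx1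
    have hQ1P : Q1 = P := by
      by_contra hne
      exact absurd (hx2 Q1 hne) (not_le.mpr hQ1)
    obtain ⟨h, hred⟩ := hR' x
    obtain ⟨v, hv, hvr⟩ := hrho.exists_pole hF' ⟨C.ι x, h⟩ P (by rw [hred, ← hQ1P]; exact hQ1)
    obtain ⟨P0, hP0, rfl⟩ := kit_pole_ι hF hF' C hv
    have : P0 = P := by
      by_contra hne
      exact absurd (hx2 P0 hne) (not_le.mpr hP0)
    rw [← this, hvr, this]
  have h6 : ∀ (e' : F →+* K') (v : Place K' F'), IsPt C e' v → ∀ f : F, 0 ≤ (rho v).ord f →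
      ∃ h : e' f ∈ B, r ⟨e' f, h⟩ = evP (rho v) f := by
    intro e' v hv f hf
    obtain ⟨h, hred⟩ := hR' f
    obtain ⟨hcA, hc⟩ := hrho.ev hF' hF hsurj ⟨C.ι f, h⟩ v (by
      intro P' hP' heq
      obtain ⟨P0, hP0, rfl⟩ := kit_pole_ι hF hF' C hP'
      rw [h4] at heq
      rw [← heq] at hf
      exact absurd hf (not_le.mpr hP0)) (e' f) (hv f)
    rw [hred] at hc
    exact ⟨hcA, (evP_eq_of _ hc).symm⟩
  refine ⟨B, r, rho, hr1, fun D' hD' => hrho.isPrincipal hD', fun D' => hrho.ell_le hF' hF hsurj D',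
    h4, ?_, h6⟩
  intro i v hv
  by_contra hne
  -- `(z i)⁻¹` is regular at `rho v ≠ Q i`
  have h1 : 0 ≤ (rho v).ord (z i)⁻¹ := by
    rw [Place.ord_inv]
    have := hz i (rho v) hne
    omega
  obtain ⟨h, -⟩ := h6 (e i) v hv (z i)⁻¹ h1
  obtain ⟨h', hh'⟩ := hr2 i
  have h2 : (⟨e i (z i), h'⟩ : B) * ⟨e i (z i)⁻¹, h⟩ = 1 := by
    apply Subtype.ext
    show e i (z i) * e i (z i)⁻¹ = 1
    rw [← map_mul, mul_inv_cancel₀ (hz0 i), map_one]
  have h3 := congrArg r h2
  rw [map_mul, hh', zero_mul, map_one] at h3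
  exact zero_ne_one h3

end S17Lib
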