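import Fermat.Agent.S17.Div.Orbit
import Fermat.Agent.S17.Div.FieldOrbit
import Fermat.Agent.S17.Div.ExchangeCurve
import Fermat.Agent.S17.Div.Spec

/-!
# S17 (DIV): `J₀(N)(ℚ̄)` is divisible
-/

set_option autoImplicit false

open AlgebraicCurve ModularCurve

namespace Fermat.Agent.S17Div

open Fermat.Agent.S18Lib Fermat.Agent.S24Lib Fermat.Agent.FFLib Fermat.Agent.S34Lib
  Fermat.Agent.S19Lib

variable {K F Ω FΩ : Type*} [Field K] [Field F] [Algebra K F] [Field Ω] [Field FΩ] [Algebra Ω FΩ]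
  [IsAlgClosed K] [IsAlgClosed Ω]

omit [IsAlgClosed Ω] in
/-- an effective representative `sumP Q` of a class of degree `n ≥ genusR` -/
theorem exists_sumP_equiv (hF : IsFF K F) (A : Divisor K F) (n : ℕ) (hn : genusR K F ≤ n)
    (hA : Divisor.degree A = n) :
    ∃ Q : Fin n → Place K F, Divisor.IsPrincipal (sumP Q - A) := by
  have h1 := riemann_inequality hF A
  have h2 : 0 < FFLib.ell A := by
    rw [hA] at h1
    omega
  obtain ⟨E, hE, hEA⟩ := exists_effective hF h2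
  have h3 := degree_eq_zero_of_isPrincipal hF hEA
  rw [map_sub, hA, sub_eq_zero] at h3
  obtain ⟨Q, rfl⟩ := exists_eq_sumP hF hE h3
  exact ⟨Q, hEA⟩

/-- (FL) the field lemma in the form used here -/
theorem isAlgebraic_of_finite_orbit' [CharZero Ω] (L : Subfield Ω) (y : Ω)
    (h : Set.Finite {z : Ω | ∃ s : Ω ≃+* Ω, (∀ x ∈ L, s x = x) ∧ z = s y}) : IsAlgebraic L y := by
  apply S17Lib.isAlgebraic_of_finite_orbit
  refine h.subset ?_
  rintro _ ⟨s, rfl⟩
  exact ⟨s.toRingEquiv, fun x hx => s.commutes ⟨x, hx⟩, rfl⟩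

/-- (DIV), abstract form -/
theorem div_abs [CharZero K] (hF : IsFF K F) (hFΩ : IsFF Ω FΩ) (C : CE K F Ω FΩ)
    (e : Fin (genusR K F) → F →+* Ω) (he : ∀ i a, e i (algebraMap K F a) = C.i a)
    (hind : Indep C.i e)
    (halg : ∀ z : Ω, IsAlgebraic (Subfield.closure (Set.range C.i ∪ ⋃ i, Set.range (e i))) z)
    (hAut : ∀ s : Ω ≃+* Ω, (∀ a, s (C.i a) = C.i a) →
      ∃ Θ : SemilinearAut Ω FΩ, SemilinearAut.baseAut Θ = s ∧ ∀ f : F, Θ • C.ι f = C.ι f)
    (m : ℕ) (hm : 0 < m) (hfin : Finite (Submodule.torsionBy ℤ (Pic0 K F) (m : ℤ)))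
    (D : Divisor K F) (hD : Divisor.degree D = 0) :
    ∃ D' : Divisor K F, Divisor.degree D' = 0 ∧ Divisor.IsPrincipal (D - m • D') := by
  classical
  have : CharZero Ω := charZero_of_injective_ringHom C.i.injective
  have hg : genusR Ω FΩ = genusR K F := genusR_ce hF hFΩ C
  choose v hv using fun i => exists_isPt hF hFΩ C (e i) (he i)
  obtain ⟨P0⟩ := exists_place hF
  -- (D0)
  set D0 : Divisor K F := Finsupp.single P0 (-(((m : ℤ) - 1) * genusR K F)) with hD0
  have hdeg0 : Divisor.degree (m • sumP v + C.extD hF hFΩ D0) = genusR K F := by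
    rw [map_add, map_nsmul, degree_sumP hFΩ, C.degree_extD hF hFΩ, hD0, degree_single' hF]
    simp only [nsmul_eq_mul]
    ring
  obtain ⟨v', hv''⟩ := exists_sumP_equiv hFΩ _ (genusR K F) hg.le hdeg0
  have hv' : Divisor.IsPrincipal (sumP v' - m • sumP v - C.extD hF hFΩ D0) := by
    rwa [sub_sub]
  -- (D2) + (D3)
  have hL : ∀ i f, IsAlgebraic (fieldL C v') (e i f) := fun i f =>
    isAlgebraic_of_finite_orbit' _ _
      (finite_orbit hF hFΩ C e hind v hv hAut m hm hfin D0 v' hv' i f)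
  -- (D4)
  obtain ⟨e', he', hind'⟩ := S17Lib.exchange hF hFΩ C e he hind halg v' hL
  -- the target
  have hdegB : Divisor.degree (D + Finsupp.single P0 (genusR K F : ℤ)) = genusR K F := by
    rw [map_add, hD, degree_single' hF, zero_add]
  obtain ⟨Q', hQ'⟩ := exists_sumP_equiv hF _ (genusR K F) le_rfl hdegB
  choose x hx1 hx2 using fun i => ce3_exists_only_pole hF (Q' i)
  have hx0 : ∀ i, x i ≠ 0 := by
    intro i h
    exact hx1 i ⟨0, by rw [map_zero, h]⟩
  -- (D5)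
  obtain ⟨B, r, rho, -, h2, -, h4, h5, -⟩ := S17Lib.exists_spec_kit2 hF hFΩ C e' Q'
    (fun i => (x i)⁻¹) (fun i => inv_ne_zero (hx0 i))
    (fun i P hP => by
      rw [P.ord_inv]
      have := hx2 i P hP
      omega)
    (hind' (fun i => (x i)⁻¹) (fun i => by
      rintro ⟨a, ha⟩
      apply hx1 i
      refine ⟨a⁻¹, ?_⟩
      rw [map_inv₀]
      show (algebraMap K F a)⁻¹ = x i
      rw [ha, inv_inv]))
  -- (D6)
  have h6 := h2 _ hv'
  have hsub : ∀ a b : Divisor Ω FΩ, Finsupp.mapDomain rho (a - b) =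
      Finsupp.mapDomain rho a - Finsupp.mapDomain rho b := fun a b =>
    map_sub (Finsupp.mapDomain.addMonoidHom rho) a b
  rw [hsub, hsub, Finsupp.mapDomain_smul, mapDomain_sumP, mapDomain_sumP,
    kit_mapDomain_extD hF hFΩ C h4] at h6
  have h7 : rho ∘ v' = Q' := funext fun i => h5 i (v' i) (he' i)
  rw [h7] at h6
  refine ⟨sumP (rho ∘ v) - Finsupp.single P0 (genusR K F : ℤ), ?_, ?_⟩
  · rw [map_sub, degree_sumP hF, degree_single' hF, sub_self]
  · have h8 := (Divisor.principal (K := K) (F := F)).sub_mem h6 hQ'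
    have h9 : sumP Q' - m • sumP (rho ∘ v) - D0 -
        (sumP Q' - (D + Finsupp.single P0 (genusR K F : ℤ))) =
        D - m • (sumP (rho ∘ v) - Finsupp.single P0 (genusR K F : ℤ)) := by
      have h10 : D0 = Finsupp.single P0 (genusR K F : ℤ) -
          m • Finsupp.single P0 (genusR K F : ℤ) := by
        rw [hD0, Finsupp.smul_single, ← Finsupp.single_sub]
        congr 1
        simp only [nsmul_eq_mul]
        ring
      rw [h10, smul_sub]
      abel
    rw [h9] at h8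
    exact h8

omit [IsAlgClosed K] [IsAlgClosed Ω] in
theorem hAut_of_one (C : CE K F Ω FΩ)
    (h : ∀ s : Ω ≃+* Ω, (∀ a, s (C.i a) = C.i a) →
      ∃ Θ : SemilinearAut Ω FΩ, SemilinearAut.baseAut Θ = s ∧
        ∀ f : F, Θ • C.ι f = C.ι ((1 : SemilinearAut K F) • f)) :
    ∀ s : Ω ≃+* Ω, (∀ a, s (C.i a) = C.i a) →
      ∃ Θ : SemilinearAut Ω FΩ, SemilinearAut.baseAut Θ = s ∧ ∀ f : F, Θ • C.ι f = C.ι f := by
  intro s hs
  obtain ⟨Θ, h1, h2⟩ := h s hs
  exact ⟨Θ, h1, fun f => by rw [h2, one_smul]⟩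

/-- (DIV) for function fields of Laurent series -/
theorem div_laurent {K : Type} [Field K] [IsAlgClosed K] [CharZero K]
    (F : IntermediateField K (LaurentSeries K)) (hF : IsFF K F)
    (m : ℕ) (hm : 0 < m) (hfin : Finite (Submodule.torsionBy ℤ (Pic0 K F) (m : ℤ)))
    (D : Divisor K F) (hD : Divisor.degree D = 0) :
    ∃ D' : Divisor K F, Divisor.degree D' = 0 ∧ Divisor.IsPrincipal (D - m • D') := by
  obtain ⟨R, -⟩ := exists_trivRed K F
  have hres : Function.Surjective (⊤ : ValuationSubring K).subtype :=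
    fun a => ⟨⟨a, trivial⟩, rfl⟩
  obtain ⟨P⟩ := exists_pkg F F hres R (genusR K F)
  obtain ⟨C, hCi, hCι⟩ := exists_ceL P.j F
  have hind : Indep C.i P.e := by
    rw [hCi]; exact P.good.indepK hres P.hresΩ P.ve
  have hφ : ∀ f : F, (((1 : SemilinearAut K F) • f : F) : LaurentSeries K) =
      coeffMap ((SemilinearAut.baseAut (1 : SemilinearAut K F) : K ≃+* K) : K →+* K)
        (f : LaurentSeries K) := by
    intro f
    have := coeffMap_congr (f := ((SemilinearAut.baseAut (1 : SemilinearAut K F) : K ≃+* K) :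
      K →+* K)) (g := RingHom.id K) (RingHom.ext fun _ => rfl) (f : LaurentSeries K)
    rw [one_smul, this, coeffMap_id]
  have hAut1 : ∀ s : P.Ω ≃+* P.Ω, (∀ a, s (C.i a) = C.i a) →
      ∃ Θ : SemilinearAut P.Ω (bcL P.j F), SemilinearAut.baseAut Θ = s ∧
        ∀ f : F, Θ • C.ι f = C.ι ((1 : SemilinearAut K F) • f) := by
    intro s hs
    refine exists_autL P.j F C hCι s (1 : SemilinearAut K F) hφ (fun a => ?_)
    have := hs a
    rw [hCi] at this
    exact this
  exact div_abs hF (C.isFF hF) C P.e (by rw [hCi]; exact P.good.comm) hind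
    (by rw [hCi]; exact P.alg) (hAut_of_one C hAut1) m hm hfin D hD

/-- (DIV) `J₀(N)(ℚ̄)` is divisible -/
theorem jzero_divisible (N : ℕ) [NeZero N] (m : ℕ) (hm : 0 < m) (x : JZero N) :
    ∃ y : JZero N, (m : ℤ) • y = x := by
  obtain ⟨D, rfl⟩ := Pic0.mk_surjective x
  obtain ⟨D', hD'0, hD'⟩ := div_laurent (FB N) (isFF_FB N) m hm (finite_torsion N m hm) D D.2
  refine ⟨Pic0.mk ⟨D', hD'0⟩, ?_⟩
  have h1 : (m : ℤ) • Pic0.mk ⟨D', hD'0⟩ = Pic0.mk ((m : ℤ) • ⟨D', hD'0⟩) := rfl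
  rw [h1]
  symm
  rw [← sub_eq_zero]
  have h2 : Pic0.mk D - Pic0.mk ((m : ℤ) • ⟨D', hD'0⟩) =
      Pic0.mk (D - (m : ℤ) • ⟨D', hD'0⟩) := rfl
  rw [h2]
  apply LV_mk_eq_zero
  rw [AddSubgroup.coe_sub, AddSubgroup.coe_zsmul, natCast_zsmul]
  exact hD'

end Fermat.Agent.S17Div
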