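import Fermat.Agent.S17.Div.Spec
import Fermat.Agent.S19.SF
import Fermat.Agent.S19.Lev

/-!
# S17 (DIV, D0 + D6): the glue

`C : CE K F K' F'`, `v` a tuple of `g = genusR K F` places of `F'`.
* (D0) `m ∑ v - (m - 1) g P₀ ~ ∑ v'` for some tuple `v'`.
* (D6) if for every such `v'` the `v' i` are points of embeddings `e' i` with algebraically
  independent values (this is what D1-D4 give for a generic tuple `v`), then every divisor of
  degree `0` of `F` is `m D₁ +` principal.
-/

set_option autoImplicit false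

open AlgebraicCurve

namespace S17Lib

open Fermat.Agent.S18Lib Fermat.Agent.S24Lib Fermat.Agent.FFLib Fermat.Agent.S34Lib
  Fermat.Agent.S19Lib

variable {K F K' F' : Type*} [Field K] [Field F] [Algebra K F] [Field K'] [Field F']
  [Algebra K' F'] [IsAlgClosed K] [IsAlgClosed K']

/-- the divisor `m ∑ v - (m - 1) g P₀` -/
noncomputable def mulDiv {g : ℕ} (m : ℕ) (v : Fin g → Place K F) (P0 : Place K F) : Divisor K F :=
  (m : ℤ) • sumP v - Finsupp.single P0 (((m : ℤ) - 1) * g)

theorem degree_mulDiv (hF : IsFF K F) {g : ℕ} (m : ℕ) (v : Fin g → Place K F) (P0 : Place K F) :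
    Divisor.degree (mulDiv m v P0) = g := by
  unfold mulDiv
  rw [map_sub, map_zsmul, degree_sumP hF, degree_single' hF]
  simp only [smul_eq_mul]
  ring

/-- every divisor of degree `genusR` is equivalent to a sum of `genusR` places -/
theorem exists_sumP_of_degree (hF : IsFF K F) (D : Divisor K F)
    (hD : Divisor.degree D = genusR K F) :
    ∃ w : Fin (genusR K F) → Place K F, Divisor.IsPrincipal (sumP w - D) := by
  have h1 := riemann_inequality hF D
  have h2 : 0 < Fermat.Agent.FFLib.ell D := by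
    rw [hD] at h1
    have : (1 : ℤ) ≤ (Fermat.Agent.FFLib.ell D : ℤ) := by omega
    exact_mod_cast this
  obtain ⟨E, hE, hp⟩ := exists_effective hF h2
  have h3 : Divisor.degree E = genusR K F := by
    have := degree_eq_zero_of_isPrincipal hF hp
    rw [map_sub, hD] at this
    omega
  obtain ⟨w, rfl⟩ := exists_eq_sumP hF hE h3
  exact ⟨w, hp⟩

/-- (D0) -/
theorem exists_mul_tuple (hF : IsFF K F) (hF' : IsFF K' F') (C : CE K F K' F') (m : ℕ)
    (v : Fin (genusR K F) → Place K' F') (P0 : Place K F) :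
    ∃ v' : Fin (genusR K F) → Place K' F',
      Divisor.IsPrincipal (sumP v' - mulDiv m v (C.extP hF hF' P0)) := by
  have hg := genusR_ce hF hF' C
  have h := exists_sumP_of_degree hF' (mulDiv m v (C.extP hF hF' P0))
    (by rw [degree_mulDiv hF', hg])
  rw [hg] at h
  exact h

omit [IsAlgClosed K] [IsAlgClosed K'] in
theorem mapDomain_mulDiv {g : ℕ} (rho : Place K' F' → Place K F) (m : ℕ)
    (v : Fin g → Place K' F') (P : Place K' F') :
    Finsupp.mapDomain rho (mulDiv m v P) = mulDiv m (rho ∘ v) (rho P) := by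
  unfold mulDiv
  have h1 : ∀ a b : Divisor K' F', Finsupp.mapDomain rho (a - b) =
      Finsupp.mapDomain rho a - Finsupp.mapDomain rho b := fun a b =>
    (Finsupp.mapDomain.addMonoidHom (M := ℤ) rho).map_sub a b
  have h2 : ∀ (n : ℤ) (a : Divisor K' F'), Finsupp.mapDomain rho (n • a) =
      n • Finsupp.mapDomain rho a := fun n a =>
    (Finsupp.mapDomain.addMonoidHom (M := ℤ) rho).map_zsmul n a
  rw [h1, h2, mapDomain_sumP, Finsupp.mapDomain_single]

/-- (D6) -/
theorem divisible_of_generic (hF : IsFF K F) (hF' : IsFF K' F') (C : CE K F K' F') (m : ℕ)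
    (v : Fin (genusR K F) → Place K' F') (P0 : Place K F)
    (H : ∀ v' : Fin (genusR K F) → Place K' F',
      Divisor.IsPrincipal (sumP v' - mulDiv m v (C.extP hF hF' P0)) →
      ∃ e' : Fin (genusR K F) → F →+* K', (∀ i, IsPt C (e' i) (v' i)) ∧
        ∀ z : Fin (genusR K F) → F, (∀ i, z i ∉ Set.range (algebraMap K F)) →
          ∀ p : MvPolynomial (Fin (genusR K F)) K,
            p.eval₂ C.i (fun i => e' i (z i)) = 0 → p = 0)
    (D : Divisor K F) (hD : Divisor.degree D = 0) :
    ∃ D1 : Divisor K F, Divisor.degree D1 = 0 ∧ Divisor.IsPrincipal (D - (m : ℤ) • D1) := by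
  classical
  obtain ⟨v', hv'⟩ := exists_mul_tuple hF hF' C m v P0
  obtain ⟨e', hpt, hind⟩ := H v' hv'
  -- the target
  obtain ⟨Q, hQ⟩ := exists_sumP_of_degree hF (D + Finsupp.single P0 (genusR K F : ℤ))
    (by rw [map_add, hD, degree_single' hF, zero_add])
  -- functions with a single zero
  have hx : ∀ i, ∃ x : F, x ∉ (algebraMap K F).range ∧ ∀ P : Place K F, P ≠ Q i → 0 ≤ P.ord x :=
    fun i => ce3_exists_only_pole hF (Q i)
  choose x hx1 hx2 using hx
  have hx0 : ∀ i, x i ≠ 0 := fun i h0 => hx1 i ⟨0, by rw [map_zero, h0]⟩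
  obtain ⟨B, r, rho, -, h2, -, h4, h5, -⟩ := exists_spec_kit2 hF hF' C e' Q (fun i => (x i)⁻¹)
    (fun i => inv_ne_zero (hx0 i))
    (fun i P hP => by
      rw [Place.ord_inv]
      have := hx2 i P hP
      omega)
    (hind (fun i => (x i)⁻¹) (fun i => by
      rintro ⟨c, hc⟩
      exact hx1 i ⟨c⁻¹, by rw [map_inv₀, hc, inv_inv]⟩))
  have h6 := h2 _ hv'
  have h7 : Finsupp.mapDomain rho (sumP v' - mulDiv m v (C.extP hF hF' P0)) =
      sumP Q - mulDiv m (rho ∘ v) P0 := by
    have h1 : ∀ a b : Divisor K' F', Finsupp.mapDomain rho (a - b) =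
        Finsupp.mapDomain rho a - Finsupp.mapDomain rho b := fun a b =>
      (Finsupp.mapDomain.addMonoidHom (M := ℤ) rho).map_sub a b
    rw [h1, mapDomain_sumP, mapDomain_mulDiv, h4]
    congr 2
    funext i
    exact h5 i (v' i) (hpt i)
  rw [h7] at h6
  refine ⟨sumP (rho ∘ v) - Finsupp.single P0 (genusR K F : ℤ), ?_, ?_⟩
  · rw [map_sub, degree_sumP hF, degree_single' hF, sub_self]
  · have h8 : D - (m : ℤ) • (sumP (rho ∘ v) - Finsupp.single P0 (genusR K F : ℤ)) =
        (sumP Q - mulDiv m (rho ∘ v) P0) -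
          (sumP Q - (D + Finsupp.single P0 (genusR K F : ℤ))) := by
      unfold mulDiv
      rw [smul_sub, Finsupp.smul_single, smul_eq_mul]
      have : Finsupp.single P0 (((m : ℤ) - 1) * (genusR K F : ℤ)) =
          Finsupp.single P0 ((m : ℤ) * (genusR K F : ℤ)) -
            Finsupp.single P0 (genusR K F : ℤ) := by
        rw [← Finsupp.single_sub]
        congr 1
        ring
      rw [this]
      abel
    rw [h8]
    exact (Divisor.principal (K := K) (F := F)).sub_mem h6 hQ

omit [IsAlgClosed K] in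
/-- translation to `Pic0` -/
theorem pic0_divisible_of (m : ℕ)
    (H : ∀ D : Divisor K F, Divisor.degree D = 0 →
      ∃ D1 : Divisor K F, Divisor.degree D1 = 0 ∧ Divisor.IsPrincipal (D - (m : ℤ) • D1))
    (x : Pic0 K F) : ∃ y : Pic0 K F, (m : ℤ) • y = x := by
  obtain ⟨D, rfl⟩ := Pic0.mk_surjective x
  obtain ⟨D1, hD1, hp⟩ := H (D : Divisor K F) D.2
  refine ⟨Pic0.mk ⟨D1, hD1⟩, ?_⟩
  rw [← LV_mk_zsmul, eq_comm, ← sub_eq_zero, ← LV_mk_sub]
  exact LV_mk_eq_zero hp

/-! ### the same in the shape of `S17Div.finite_orbit` -/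

/-- (D5 + D6) in the shape of `finite_orbit` -/
theorem div_of_kit (hF : IsFF K F) (hF' : IsFF K' F') (C : CE K F K' F') {g : ℕ} (m : ℕ)
    (v v' : Fin g → Place K' F') (D0 : Divisor K F)
    (hprin : Divisor.IsPrincipal (sumP v' - m • sumP v - C.extD hF hF' D0))
    (e' : Fin g → F →+* K') (hpt : ∀ i, IsPt C (e' i) (v' i))
    (hind : ∀ z : Fin g → F, (∀ i, z i ∉ Set.range (algebraMap K F)) →
      ∀ p : MvPolynomial (Fin g) K, p.eval₂ C.i (fun i => e' i (z i)) = 0 → p = 0)
    (Q : Fin g → Place K F) :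
    ∃ w : Fin g → Place K F, Divisor.IsPrincipal (sumP Q - m • sumP w - D0) := by
  classical
  have hx : ∀ i, ∃ x : F, x ∉ (algebraMap K F).range ∧ ∀ P : Place K F, P ≠ Q i → 0 ≤ P.ord x :=
    fun i => ce3_exists_only_pole hF (Q i)
  choose x hx1 hx2 using hx
  have hx0 : ∀ i, x i ≠ 0 := fun i h0 => hx1 i ⟨0, by rw [map_zero, h0]⟩
  obtain ⟨B, r, rho, -, h2, -, h4, h5, -⟩ := exists_spec_kit2 hF hF' C e' Q (fun i => (x i)⁻¹)
    (fun i => inv_ne_zero (hx0 i))
    (fun i P hP => by
      rw [Place.ord_inv]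
      have := hx2 i P hP
      omega)
    (hind (fun i => (x i)⁻¹) (fun i => by
      rintro ⟨c, hc⟩
      exact hx1 i ⟨c⁻¹, by rw [map_inv₀, hc, inv_inv]⟩))
  have h6 := h2 _ hprin
  have h7 : Finsupp.mapDomain rho (sumP v' - m • sumP v - C.extD hF hF' D0) =
      sumP Q - m • sumP (rho ∘ v) - D0 := by
    have h1 : ∀ a b : Divisor K' F', Finsupp.mapDomain rho (a - b) =
        Finsupp.mapDomain rho a - Finsupp.mapDomain rho b := fun a b =>
      (Finsupp.mapDomain.addMonoidHom (M := ℤ) rho).map_sub a b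
    have h3 : ∀ (n : ℕ) (a : Divisor K' F'), Finsupp.mapDomain rho (n • a) =
        n • Finsupp.mapDomain rho a := fun n a =>
      (Finsupp.mapDomain.addMonoidHom (M := ℤ) rho).map_nsmul n a
    rw [h1, h1, h3, mapDomain_sumP, mapDomain_sumP, kit_mapDomain_extD hF hF' C h4]
    congr 3
    funext i
    exact h5 i (v' i) (hpt i)
  rw [h7] at h6
  exact ⟨rho ∘ v, h6⟩

/-- (D0) in the shape of `finite_orbit` -/
theorem exists_mul_tuple' (hF : IsFF K F) (hF' : IsFF K' F') (C : CE K F K' F') (m : ℕ)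
    (v : Fin (genusR K F) → Place K' F') (D0 : Divisor K F)
    (hD0 : Divisor.degree D0 = (genusR K F : ℤ) - m * (genusR K F : ℤ)) :
    ∃ v' : Fin (genusR K F) → Place K' F',
      Divisor.IsPrincipal (sumP v' - m • sumP v - C.extD hF hF' D0) := by
  have hg := genusR_ce hF hF' C
  have h := exists_sumP_of_degree hF' (m • sumP v + C.extD hF hF' D0)
    (by
      rw [map_add, map_nsmul, degree_sumP hF', C.degree_extD hF hF', hD0, hg]
      simp only [nsmul_eq_mul]
      ring)
  rw [hg] at h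
  obtain ⟨v', hv'⟩ := h
  exact ⟨v', by rwa [sub_sub]⟩

/-- every divisor of degree `0` is `∑ Q - g P₀` up to a principal divisor -/
theorem exists_sumP_sub (hF : IsFF K F) (P0 : Place K F) (D : Divisor K F)
    (hD : Divisor.degree D = 0) :
    ∃ Q : Fin (genusR K F) → Place K F,
      Divisor.IsPrincipal (sumP Q - (D + Finsupp.single P0 (genusR K F : ℤ))) :=
  exists_sumP_of_degree hF _ (by rw [map_add, hD, degree_single' hF, zero_add])

/-- (D0 + D5 + D6): divisibility from the generic statement, in the shape of `finite_orbit` -/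
theorem divisible_of_generic' (hF : IsFF K F) (hF' : IsFF K' F') (C : CE K F K' F') (m : ℕ)
    (v : Fin (genusR K F) → Place K' F')
    (H : ∀ (D0 : Divisor K F) (v' : Fin (genusR K F) → Place K' F'),
      Divisor.IsPrincipal (sumP v' - m • sumP v - C.extD hF hF' D0) →
      ∃ e' : Fin (genusR K F) → F →+* K', (∀ i, IsPt C (e' i) (v' i)) ∧
        ∀ z : Fin (genusR K F) → F, (∀ i, z i ∉ Set.range (algebraMap K F)) →
          ∀ p : MvPolynomial (Fin (genusR K F)) K,
            p.eval₂ C.i (fun i => e' i (z i)) = 0 → p = 0)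
    (D : Divisor K F) (hD : Divisor.degree D = 0) :
    ∃ D1 : Divisor K F, Divisor.degree D1 = 0 ∧ Divisor.IsPrincipal (D - (m : ℤ) • D1) := by
  classical
  obtain ⟨P0⟩ := exists_place hF
  set D0 : Divisor K F := Finsupp.single P0 ((genusR K F : ℤ) - m * (genusR K F : ℤ)) with hD0
  obtain ⟨v', hv'⟩ := exists_mul_tuple' hF hF' C m v D0 (by rw [hD0, degree_single' hF])
  obtain ⟨e', hpt, hind⟩ := H D0 v' hv'
  obtain ⟨Q, hQ⟩ := exists_sumP_sub hF P0 D hD
  obtain ⟨w, hw⟩ := div_of_kit hF hF' C m v v' D0 hv' e' hpt hind Q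
  refine ⟨sumP w - Finsupp.single P0 (genusR K F : ℤ), ?_, ?_⟩
  · rw [map_sub, degree_sumP hF, degree_single' hF, sub_self]
  · have h8 : D - (m : ℤ) • (sumP w - Finsupp.single P0 (genusR K F : ℤ)) =
        (sumP Q - m • sumP w - D0) - (sumP Q - (D + Finsupp.single P0 (genusR K F : ℤ))) := by
      rw [hD0, smul_sub, Finsupp.smul_single, smul_eq_mul, Finsupp.single_sub, natCast_zsmul]
      abel
    rw [h8]
    exact (Divisor.principal (K := K) (F := F)).sub_mem hw hQ

end S17Lib
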