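import Fermat.Agent.S17.Div.Tors

/-!
# S17 (DIV, D2): finite orbits
-/

set_option autoImplicit false

open AlgebraicCurve

namespace Fermat.Agent.S17Div

open Fermat.Agent.S18Lib Fermat.Agent.S24Lib Fermat.Agent.FFLib Fermat.Agent.S34Lib
  Fermat.Agent.S19Lib

variable {K F Ω FΩ : Type*} [Field K] [Field F] [Algebra K F] [Field Ω] [Field FΩ] [Algebra Ω FΩ]

/-- the field generated by the constants and the coordinates of the points `v' i` -/
def fieldL (C : CE K F Ω FΩ) {g : ℕ} (v' : Fin g → Place Ω FΩ) : Subfield Ω :=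
  Subfield.closure (Set.range C.i ∪
    {z | ∃ (i : Fin g) (e' : F →+* Ω) (f : F), IsPt C e' (v' i) ∧ z = e' f})

theorem indep_comp_aut {j : K →+* Ω} {g : ℕ} {e : Fin g → F →+* Ω} (hind : Indep j e)
    (s : Ω ≃+* Ω) (hs : ∀ a, s (j a) = j a) :
    Indep j (fun i => (s : Ω →+* Ω).comp (e i)) := by
  intro m b hb lam h
  apply hind m b hb lam
  apply s.injective
  rw [map_zero, map_sum, ← h]
  refine Finset.sum_congr rfl fun ν _ => ?_
  rw [map_mul, hs, map_prod]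
  rfl

theorem isPt_smul_fix {C : CE K F Ω FΩ} {e : F →+* Ω} {v : Place Ω FΩ} (h : IsPt C e v)
    (Θ : SemilinearAut Ω FΩ) (hΘ : ∀ f : F, Θ • C.ι f = C.ι f) :
    IsPt C (((SemilinearAut.baseAut Θ : Ω ≃+* Ω) : Ω →+* Ω).comp e) (Θ • v) :=
  h.smul Θ (RingEquiv.refl F) hΘ

theorem isCst_smul_fix {C : CE K F Ω FΩ} {P : Place K F} {v : Place Ω FΩ} (h : IsCst C P v)
    (Θ : SemilinearAut Ω FΩ) (hΘ : ∀ f : F, Θ • C.ι f = C.ι f) : IsCst C P (Θ • v) := by
  have := h.smul Θ (1 : SemilinearAut K F) (fun f => by rw [one_smul]; exact hΘ f)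
  rwa [one_smul] at this

variable [IsAlgClosed K] [IsAlgClosed Ω]

/-- an automorphism fixing `fieldL` fixes the places `v' j` -/
theorem smul_eq_of_fix [CharZero K] (hF : IsFF K F) (hFΩ : IsFF Ω FΩ) (C : CE K F Ω FΩ) {g : ℕ}
    (v' : Fin g → Place Ω FΩ) (Θ : SemilinearAut Ω FΩ) (hΘ : ∀ f : F, Θ • C.ι f = C.ι f)
    (hfix : ∀ x ∈ fieldL C v', SemilinearAut.baseAut Θ x = x) (j : Fin g) :
    Θ • v' j = v' j := by
  rcases C.cst_or_pt hF hFΩ (v' j) with ⟨P, hP⟩ | ⟨e', he'⟩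
  · exact (isCst_smul_fix hP Θ hΘ).unique hF hFΩ hP
  · have h1 := isPt_smul_fix he' Θ hΘ
    have h2 : ((SemilinearAut.baseAut Θ : Ω ≃+* Ω) : Ω →+* Ω).comp e' = e' :=
      RingHom.ext fun f => hfix _ (Subfield.subset_closure (Or.inr ⟨j, e', f, he', rfl⟩))
    rw [h2] at h1
    exact h1.unique hF hFΩ he'

theorem principal_diff [CharZero K] (hF : IsFF K F) (hFΩ : IsFF Ω FΩ) (C : CE K F Ω FΩ) {g : ℕ}
    (v v' : Fin g → Place Ω FΩ) (Θ : SemilinearAut Ω FΩ) (hΘ : ∀ f : F, Θ • C.ι f = C.ι f)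
    (hfix : ∀ x ∈ fieldL C v', SemilinearAut.baseAut Θ x = x) (m : ℕ) (D0 : Divisor K F)
    (hv' : Divisor.IsPrincipal (sumP v' - m • sumP v - C.extD hF hFΩ D0)) :
    Divisor.IsPrincipal (m • (sumP (fun i => Θ • v i) - sumP v)) := by
  have h1 := SemilinearAut.smul_mem_principal Θ hv'
  rw [smul_sub, smul_sub, smul_comm, tr_smul_sumP, tr_smul_sumP,
    C.smul_extD hF hFΩ Θ 1 (fun f => by rw [one_smul]; exact hΘ f), one_smul] at h1
  have h2 : (fun i => Θ • v' i) = v' := funext fun j => smul_eq_of_fix hF hFΩ C v' Θ hΘ hfix j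
  rw [h2] at h1
  have := (Divisor.principal (K := Ω) (F := FΩ)).sub_mem hv' h1
  have heq : (sumP v' - m • sumP v - C.extD hF hFΩ D0) -
      (sumP v' - m • sumP (fun i => Θ • v i) - C.extD hF hFΩ D0) =
      m • (sumP (fun i => Θ • v i) - sumP v) := by
    rw [smul_sub]; abel
  rw [heq] at this
  exact this

/-- (FO) finite orbits -/
theorem finite_orbit [CharZero K] (hF : IsFF K F) (hFΩ : IsFF Ω FΩ) (C : CE K F Ω FΩ)
    (e : Fin (genusR K F) → F →+* Ω) (hind : Indep C.i e)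
    (v : Fin (genusR K F) → Place Ω FΩ) (hv : ∀ i, IsPt C (e i) (v i))
    (hAut : ∀ s : Ω ≃+* Ω, (∀ a, s (C.i a) = C.i a) →
      ∃ Θ : SemilinearAut Ω FΩ, SemilinearAut.baseAut Θ = s ∧ ∀ f : F, Θ • C.ι f = C.ι f)
    (m : ℕ) (hm : 0 < m) (hfin : Finite (Submodule.torsionBy ℤ (Pic0 K F) (m : ℤ)))
    (D0 : Divisor K F) (v' : Fin (genusR K F) → Place Ω FΩ)
    (hv' : Divisor.IsPrincipal (sumP v' - m • sumP v - C.extD hF hFΩ D0))
    (i : Fin (genusR K F)) (f : F) :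
    Set.Finite {z : Ω | ∃ s : Ω ≃+* Ω, (∀ x ∈ fieldL C v', s x = x) ∧ z = s (e i f)} := by
  classical
  obtain ⟨rho, hrho1, hrho2⟩ := exists_rho_tors hF hFΩ C
  choose Θ hΘ1 hΘ2 using hAut
  have hSc : ∀ s : Ω ≃+* Ω, (∀ x ∈ fieldL C v', s x = x) → ∀ a, s (C.i a) = C.i a :=
    fun s hs a => hs _ (Subfield.subset_closure (Or.inl ⟨a, rfl⟩))
  -- the translated tuples
  have hw : ∀ (s : Ω ≃+* Ω) (hs : ∀ a, s (C.i a) = C.i a) (j : Fin (genusR K F)),
      IsPt C ((s : Ω →+* Ω).comp (e j)) (Θ s hs • v j) := by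
    intro s hs j
    have := isPt_smul_fix (hv j) (Θ s hs) (hΘ2 s hs)
    rwa [hΘ1 s hs] at this
  have hprin : ∀ (s : Ω ≃+* Ω) (hs : ∀ x ∈ fieldL C v', s x = x),
      Divisor.IsPrincipal (m • (sumP (fun j => Θ s (hSc s hs) • v j) - sumP v)) := by
    intro s hs
    exact principal_diff hF hFΩ C v v' (Θ s (hSc s hs)) (hΘ2 s _)
      (by rw [hΘ1 s _]; exact hs) m D0 hv'
  have hdeg : ∀ (s : Ω ≃+* Ω) (hs : ∀ a, s (C.i a) = C.i a),
      Finsupp.mapDomain rho (sumP (fun j => Θ s hs • v j) - sumP v) ∈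
        Divisor.degZero (K := K) (F := F) := by
    intro s hs
    rw [Divisor.mem_degZero, degree_mapDomain hFΩ hF, map_sub, degree_sumP hFΩ, degree_sumP hFΩ,
      sub_self]
  have hnn : ∀ w : Fin (genusR K F) → Place Ω FΩ, 0 ≤ sumP w := by
    intro w P
    rw [gen_sumP_apply]
    exact Nat.cast_nonneg _
  have hcls : ∀ (s : Ω ≃+* Ω) (hs : ∀ x ∈ fieldL C v', s x = x),
      (m : ℤ) • Pic0.mk ⟨_, hdeg s (hSc s hs)⟩ = 0 := by
    intro s hs
    have h1 : (m : ℤ) • Pic0.mk ⟨_, hdeg s (hSc s hs)⟩ =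
        Pic0.mk ((m : ℤ) • ⟨_, hdeg s (hSc s hs)⟩) := rfl
    rw [h1]
    apply LV_mk_eq_zero
    rw [AddSubgroup.coe_zsmul, natCast_zsmul, ← Finsupp.mapDomain_smul]
    exact hrho1 _ (hprin s hs)
  have hinj : ∀ (s : Ω ≃+* Ω) (hs : ∀ x ∈ fieldL C v', s x = x)
      (s' : Ω ≃+* Ω) (hs' : ∀ x ∈ fieldL C v', s' x = x),
      Pic0.mk ⟨_, hdeg s (hSc s hs)⟩ = Pic0.mk ⟨_, hdeg s' (hSc s' hs')⟩ →
      ∃ j, s (e i f) = s' (e j f) := by
    intro s hs s' hs' heq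
    have h1 : Pic0.mk (⟨_, hdeg s (hSc s hs)⟩ - ⟨_, hdeg s' (hSc s' hs')⟩) = 0 := by
      have : Pic0.mk (⟨_, hdeg s (hSc s hs)⟩ - ⟨_, hdeg s' (hSc s' hs')⟩) =
          Pic0.mk ⟨_, hdeg s (hSc s hs)⟩ - Pic0.mk ⟨_, hdeg s' (hSc s' hs')⟩ := rfl
      rw [this, heq, sub_self]
    have h2 := LV_principal_of_mk_eq_zero h1
    rw [AddSubgroup.coe_sub] at h2
    have h3 : Finsupp.mapDomain rho (sumP (fun j => Θ s (hSc s hs) • v j) - sumP v) -
        Finsupp.mapDomain rho (sumP (fun j => Θ s' (hSc s' hs') • v j) - sumP v) =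
        Finsupp.mapDomain rho (sumP (fun j => Θ s (hSc s hs) • v j) -
          sumP (fun j => Θ s' (hSc s' hs') • v j)) := by
      have hsub : ∀ a b : Divisor Ω FΩ, Finsupp.mapDomain rho (a - b) =
          Finsupp.mapDomain rho a - Finsupp.mapDomain rho b := fun a b =>
        map_sub (Finsupp.mapDomain.addMonoidHom rho) a b
      rw [hsub, hsub, hsub]; abel
    rw [h3] at h2
    have h4 : Divisor.IsPrincipal (m • (sumP (fun j => Θ s (hSc s hs) • v j) -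
          sumP (fun j => Θ s' (hSc s' hs') • v j))) := by
      have := (Divisor.principal (K := Ω) (F := FΩ)).sub_mem (hprin s hs) (hprin s' hs')
      rw [← smul_sub] at this
      have h5 : sumP (fun j => Θ s (hSc s hs) • v j) - sumP v -
          (sumP (fun j => Θ s' (hSc s' hs') • v j) - sumP v) =
          sumP (fun j => Θ s (hSc s hs) • v j) - sumP (fun j => Θ s' (hSc s' hs') • v j) := by
        abel
      rw [h5] at this
      exact this
    have h6 := hrho2 m hm _ h4 h2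
    have h7 : FFLib.ell (sumP (fun j => Θ s' (hSc s' hs') • v j)) = 1 := by
      have := sf_ell hF hFΩ C _ (indep_comp_aut hind s' (hSc s' hs')) _
        (hw s' (hSc s' hs')) 0 (map_zero _)
      have h0 : C.extD hF hFΩ 0 = 0 := Finsupp.mapDomain_zero
      rwa [h0, add_zero] at this
    have h8 := eq_of_ell_eq_one hFΩ (hnn _) (hnn _) h6 h7
    obtain ⟨π, hπ⟩ := exists_perm_of_sumP_eq h8.symm
    refine ⟨π i, ?_⟩
    have h9 := hw s (hSc s hs) i
    have h10 : Θ s (hSc s hs) • v i = Θ s' (hSc s' hs') • v (π i) := congrFun hπ i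
    rw [h10] at h9
    exact congrArg (fun φ : F →+* Ω => φ f) (h9.eq_of (hw s' (hSc s' hs') (π i)))
  -- pigeonhole
  have hT : Set.Finite {x : Pic0 K F | (m : ℤ) • x = 0} := by
    have : {x : Pic0 K F | (m : ℤ) • x = 0} =
        ((Submodule.torsionBy ℤ (Pic0 K F) (m : ℤ) : Submodule ℤ (Pic0 K F)) : Set (Pic0 K F)) := by
      ext x
      exact (Submodule.mem_torsionBy_iff (R := ℤ) (M := Pic0 K F) (m : ℤ) x).symm
    rw [this]
    exact Set.toFinite _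
  refine (hT.biUnion (t := fun x => {z : Ω | ∃ (s : Ω ≃+* Ω) (hs : ∀ x ∈ fieldL C v', s x = x),
    Pic0.mk ⟨_, hdeg s (hSc s hs)⟩ = x ∧ z = s (e i f)}) ?_).subset ?_
  · intro x _
    by_cases hne : ∃ (s : Ω ≃+* Ω) (hs : ∀ x ∈ fieldL C v', s x = x),
      Pic0.mk ⟨_, hdeg s (hSc s hs)⟩ = x
    · obtain ⟨s', hs', hx'⟩ := hne
      refine (Set.finite_range (fun j => s' (e j f))).subset ?_
      rintro z ⟨s, hs, hx, rfl⟩
      obtain ⟨j, hj⟩ := hinj s hs s' hs' (hx.trans hx'.symm)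
      exact ⟨j, hj.symm⟩
    · refine Set.Finite.subset Set.finite_empty ?_
      rintro z ⟨s, hs, hx, -⟩
      exact hne ⟨s, hs, hx⟩
  · rintro z ⟨s, hs, rfl⟩
    exact Set.mem_biUnion (hcls s hs) ⟨s, hs, rfl, rfl⟩

end Fermat.Agent.S17Div
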