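import Fermat.Agent.S19.Geo
import Fermat.Agent.S19.Lev

/-!
# S17 (DIV, D1): specialisation is injective on torsion classes (constant family, char. 0)
-/

set_option autoImplicit false

open AlgebraicCurve

namespace Fermat.Agent.S17Div

open Fermat.Agent.S18Lib Fermat.Agent.S24Lib Fermat.Agent.FFLib Fermat.Agent.S34Lib
  Fermat.Agent.S19Lib

variable {K F Ω FΩ : Type*} [Field K] [Field F] [Algebra K F] [Field Ω] [Field FΩ] [Algebra Ω FΩ]
  [IsAlgClosed K] [IsAlgClosed Ω]

/-- (D1) a specialisation of places which is injective on torsion classes -/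
theorem exists_rho_tors [CharZero K] (hF : IsFF K F) (hFΩ : IsFF Ω FΩ) (C : CE K F Ω FΩ) :
    ∃ rho : Place Ω FΩ → Place K F,
      (∀ D' : Divisor Ω FΩ, Divisor.IsPrincipal D' →
        Divisor.IsPrincipal (Finsupp.mapDomain rho D')) ∧
      (∀ m : ℕ, 0 < m → ∀ D' : Divisor Ω FΩ, Divisor.IsPrincipal (m • D') →
        Divisor.IsPrincipal (Finsupp.mapDomain rho D') → Divisor.IsPrincipal D') := by
  classical
  obtain ⟨B, r, hr1⟩ := exists_spec0 C.i
  obtain ⟨R', hR'⟩ := exists_specRed C B r hr1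
  have hsurj : Function.Surjective r := fun a => ⟨_, (hr1 a).2⟩
  obtain ⟨rho, hrho⟩ := exists_isRho hFΩ hF hsurj R' (genusR_ce_le hF hFΩ C)
  refine ⟨rho, fun D' hD' => hrho.isPrincipal hD', ?_⟩
  intro m hm D' h1 h2
  obtain ⟨f, hf, hfD⟩ := h1
  obtain ⟨c, hc, y, rfl⟩ := R'.exists_scale f hf
  obtain ⟨h, hh, hhD⟩ := h2
  have hy : R'.red (y : R'.O) ≠ 0 := (y.isUnit.map R'.red).ne_zero
  have hy0 : (((y : R'.O) : FΩ)) ≠ 0 := right_ne_zero_of_mul hf
  have hc' : algebraMap Ω FΩ c ≠ 0 := left_ne_zero_of_mul hf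
  have hyD : ∀ v, (m • D') v = v.ord (((y : R'.O) : FΩ)) := by
    intro v
    rw [hfD v, v.ord_mul hc' hy0, ord_algebraMap, zero_add]
  have key : ∀ Q : Place K F, Q.ord (R'.red (y : R'.O)) = m * Q.ord h := by
    intro Q
    rw [← hrho (y : R'.O) hy (m • D') hyD Q, Finsupp.mapDomain_smul, Finsupp.smul_apply, hhD Q]
    simp
  -- the orders of `ι (red y)`
  have key' : ∀ v : Place Ω FΩ, v.ord (C.ι (R'.red (y : R'.O))) = m * v.ord (C.ι h) := by
    intro v
    rcases C.cst_or_pt hF hFΩ v with ⟨P, hP⟩ | ⟨e, he⟩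
    · rw [hP, hP, key]
    · rw [he.ord_eq_zero, he.ord_eq_zero, mul_zero]
  obtain ⟨ht, htred⟩ := hR' (R'.red (y : R'.O))⁻¹
  set u : R'.O := (y : R'.O) * ⟨C.ι (R'.red (y : R'.O))⁻¹, ht⟩ with hu
  have hured : R'.red u = 1 := by
    rw [hu, map_mul, htred, mul_inv_cancel₀ hy]
  have hιh : C.ι h ≠ 0 := (map_ne_zero _).2 hh
  have hE : Divisor.IsPrincipal (divOf Ω (C.ι h)) := ⟨C.ι h, hιh, fun v => divOf_apply hFΩ _ v⟩
  have hmain : Divisor.IsPrincipal (D' - divOf Ω (C.ι h)) := by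
    refine good_reduction_torsion hFΩ hF B r hsurj R' (genusR Ω FΩ)
      (fun E => by rw [ell_eq_ell]; exact riemann_inequality hFΩ E) ?_ m
      (by exact_mod_cast hm.ne') u hured _ ?_
    · intro c
      obtain ⟨c', hc'⟩ := riemann_equality hF
      obtain ⟨v⟩ := exists_place hF
      refine ⟨Finsupp.single v (max c c'), ?_, ?_⟩
      · rw [degree_single' hF]; exact le_max_left _ _
      · have h1 := hc' (Finsupp.single v (max c c'))
          (by rw [degree_single' hF]; exact le_max_right _ _)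
        rw [ell_eq_ell, h1, genusR_ce hF hFΩ C]
    · intro v
      have h1 : ((u : R'.O) : FΩ) = ((y : R'.O) : FΩ) * C.ι (R'.red (y : R'.O))⁻¹ := rfl
      rw [h1, v.ord_mul hy0 ((map_ne_zero _).2 (inv_ne_zero hy)), map_inv₀, v.ord_inv, key' v,
        ← hyD v, Finsupp.sub_apply, divOf_apply hFΩ]
      simp only [Finsupp.smul_apply, nsmul_eq_mul]
      ring
  have := (Divisor.principal (K := Ω) (F := FΩ)).add_mem hmain hE
  rwa [sub_add_cancel] at this

end Fermat.Agent.S17Div
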